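import Mathlib
import Fermat.Prelude.Thm_CongruenceSubgroup_one_mem_strictPeriods_Gamma0
import Fermat.Agent.S24.LevelForms
import Fermat.Agent.S24.JQExpansion

/-!
# `q`-expansion of `z ↦ f (d z)`

For a level-one modular form `f` and `d ∣ N`, the `q`-expansion (width `1`) of
`S24.LevelForms.scaleForm N d hd f : ModularForm Γ₀(N) k` is `PowerSeries.expand d` of the
`q`-expansion of `f`.
-/

set_option autoImplicit false

open UpperHalfPlane ModularFormClass
open scoped MatrixGroups

namespace Fermat.Agent.S28.Haupt3.ScaleQExp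

open Fermat.Agent.S24 Fermat.Agent.S24.LevelForms CongruenceSubgroup

local notation "𝕢" => Function.Periodic.qParam

/-- `Γ₀(N)` as a subgroup of `GL(2, ℝ)`. -/
abbrev G0 (N : ℕ) : Subgroup (GL (Fin 2) ℝ) :=
  ((Gamma0 N : Subgroup SL(2, ℤ)) : Subgroup (GL (Fin 2) ℝ))

theorem one_mem_strictPeriods (N : ℕ) : (1 : ℝ) ∈ (G0 N).strictPeriods :=
  CongruenceSubgroup.one_mem_strictPeriods_Gamma0 N

theorem one_mem_strictPeriods_SL : (1 : ℝ) ∈ (𝒮ℒ).strictPeriods := by
  simp

variable {F : Type*} [FunLike F ℍ ℂ] {k : ℤ} [ModularFormClass F 𝒮ℒ k]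

theorem qExpansion_scaleForm (N d : ℕ) [NeZero d] (hd : d ∣ N) (f : F) :
    qExpansion 1 (scaleForm N d hd f) =
      PowerSeries.expand d (NeZero.ne d) (qExpansion 1 f) := by
  have hd0 : 0 < d := Nat.pos_of_ne_zero (NeZero.ne d)
  ext m
  rw [PowerSeries.coeff_expand]
  symm
  refine ModularFormClass.qExpansion_coeff_unique (Γ := G0 N) (k := k)
    (c := fun m => if d ∣ m then (qExpansion 1 f).coeff (m / d) else 0) one_pos
    (one_mem_strictPeriods N) (f := scaleForm N d hd f) (fun τ => ?_) m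
  rw [scaleForm_apply]
  have h1 := ModularForm.hasSum_qExpansion (f := f) (Γ := 𝒮ℒ) (k := k) one_pos
    one_mem_strictPeriods_SL (scaleH d τ)
  rw [coe_scaleH hd0, JQExpansion.qParam_natCast_mul] at h1
  have hinj : Function.Injective (fun m : ℕ ↦ d * m) := fun a b hab ↦
    Nat.eq_of_mul_eq_mul_left hd0 hab
  rw [← hinj.hasSum_iff]
  · convert h1 using 2 with m
    simp [Nat.mul_div_cancel_left _ hd0, pow_mul]
  · intro n hn
    have : ¬ d ∣ n := by
      rintro ⟨m, rfl⟩
      exact hn ⟨m, rfl⟩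
    simp [this]

end Fermat.Agent.S28.Haupt3.ScaleQExp
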