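import Mathlib
import Fermat.Prelude.Thm_ModularForm_sturm_bound_Gamma0
import Fermat.Agent.S24.Degree
import Fermat.Agent.S28.Haupt3.ScaleQExp

/-!
# Sturm bound on `Γ₀(3)` in weight `48`, and the level-3 forms `E₄(τ), E₄(3τ), Δ(τ), Δ(3τ)`

A polynomial identity `G = 0` between the integer `q`-expansions of `E₄(τ)`, `E₄(3τ)`, `Δ(τ)`,
`Δ(3τ)`, homogeneous of weight `48`, holds as soon as the coefficients of `G` in degrees `≤ 16`
vanish.
-/

set_option autoImplicit false

open UpperHalfPlane ModularFormClass ModularForm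
open scoped MatrixGroups

noncomputable section

namespace Fermat.Agent.S28.Haupt3.Sturm3

open Fermat.Agent.S24 Fermat.Agent.S24.LevelForms CongruenceSubgroup
open Fermat.Agent.S28.Haupt3.ScaleQExp
open PowerSeries

theorem dedekindPsi_three : ModularCurve.dedekindPsi 3 = 4 := by
  have h3 : Nat.divisors 3 = {1, 3} := by decide
  rw [ModularCurve.dedekindPsi, h3]
  have h1 : Squarefree (1 : ℕ) := squarefree_one
  have h2 : Squarefree (3 : ℕ) := Nat.prime_three.squarefree
  rw [Finset.filter_true_of_mem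
    (by intro x hx; simp at hx; rcases hx with rfl | rfl <;> assumption)]
  decide

theorem index_Gamma0_three : (Gamma0 3).index = 4 := by
  rw [Fermat.Agent.S24.Degree.index_Gamma0, dedekindPsi_three]

/-- The coefficient embedding `ℤ⟦X⟧ → ℂ⟦X⟧`. -/
abbrev ι : PowerSeries ℤ →+* PowerSeries ℂ := PowerSeries.map (Int.castRingHom ℂ)

theorem ι_injective : Function.Injective ι := by
  intro a b h
  ext n
  have := congrArg (coeff n) h
  simpa [ι] using this

/-- **Sturm bound** on `Γ₀(3)` in weight `48`: `17` vanishing coefficients suffice. -/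
theorem eq_zero_of_coeff {G : PowerSeries ℤ} (F : ModularForm (G0 3) 48)
    (hF : qExpansion 1 F = ι G) (hG : ∀ n < 17, coeff n G = 0) : G = 0 := by
  have hF0 : F = 0 := by
    apply ModularForm.sturm_bound_Gamma0 3
    intro n hn
    rw [index_Gamma0_three] at hn
    have hn' : n < 17 := by
      have h16 : ((48 : ℤ) * ((4 : ℕ) : ℤ)).toNat / 12 = 16 := by decide
      rw [h16] at hn
      omega
    rw [hF, ι, coeff_map, hG n hn', map_zero]
  apply ι_injective
  rw [← hF, hF0, map_zero]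
  exact qExpansion_zero 1

/-! ### The four basic forms and their `q`-expansions -/

/-- `E₄(τ)` on `Γ₀(3)`. -/
def e4 : ModularForm (G0 3) 4 := scaleForm 3 1 (one_dvd 3) E₄

/-- `E₄(3τ)` on `Γ₀(3)`. -/
def e4' : ModularForm (G0 3) 4 := scaleForm 3 3 dvd_rfl E₄

/-- `Δ(τ)` on `Γ₀(3)`. -/
def d1 : ModularForm (G0 3) 12 := scaleForm 3 1 (one_dvd 3) CuspForm.discriminant

/-- `Δ(3τ)` on `Γ₀(3)`. -/
def d3 : ModularForm (G0 3) 12 := scaleForm 3 3 dvd_rfl CuspForm.discriminant

/-- `E₄` as an integer power series. -/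
def E : PowerSeries ℤ := ModularCurve.eisenstein4

/-- `E₄(q³)`. -/
def E' : PowerSeries ℤ := expand 3 (by norm_num) E

/-- `Δ = q ∏ (1 - qⁿ)²⁴` as an integer power series. -/
def D1 : PowerSeries ℤ := X * ModularCurve.dedekindEtaUnit

/-- `Δ(q³)`. -/
def D3 : PowerSeries ℤ := expand 3 (by norm_num) D1

theorem qExpansion_e4 : qExpansion 1 e4 = ι E := by
  rw [e4, qExpansion_scaleForm, expand_one_apply, JQExpansion.qExpansion_E4, E]

theorem qExpansion_e4' : qExpansion 1 e4' = ι E' := by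
  rw [e4', qExpansion_scaleForm, JQExpansion.qExpansion_E4, E', ι, map_expand, E]

theorem qExpansion_disc :
    qExpansion 1 (CuspForm.discriminant) = ι D1 := by
  rw [D1, ι, map_mul, map_X]
  exact JQExpansion.qExpansion_discriminant

theorem qExpansion_d1 : qExpansion 1 d1 = ι D1 := by
  rw [d1, qExpansion_scaleForm, expand_one_apply, qExpansion_disc]

theorem qExpansion_d3 : qExpansion 1 d3 = ι D3 := by
  rw [d3, qExpansion_scaleForm, qExpansion_disc, D3, ι, map_expand]

/-! ### The two weight-`48` identities -/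

local notation "hΓ" => one_mem_strictPeriods 3

/-- The weight-`12` form `x³ - a Δ(τ) - b Δ(3τ)` for a weight-`4` form `x`. -/
def formA (x : ModularForm (G0 3) 4) (a b : ℂ) : ModularForm (G0 3) 12 :=
  mcast (by norm_num) ((x.mul x).mul x) - a • d1 - b • d3

/-- The weight-`24` form `Δ(τ)² + c Δ(τ)Δ(3τ) + e Δ(3τ)²`. -/
def formB (c e : ℂ) : ModularForm (G0 3) 24 :=
  mcast (by norm_num) (d1.mul d1) + c • mcast (by norm_num) (d1.mul d3)
    + e • mcast (by norm_num) (d3.mul d3)

/-- The weight-`48` form `Δ(τ)Δ(3τ) A² - B²`. -/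
def formF (x : ModularForm (G0 3) 4) (a b c e : ℂ) : ModularForm (G0 3) 48 :=
  mcast (by norm_num) ((d1.mul d3).mul ((formA x a b).mul (formA x a b)))
    - mcast (by norm_num) ((formB c e).mul (formB c e))

/-- The formal counterpart of `formF`. -/
def polyG (x : PowerSeries ℤ) (a b c e : ℤ) : PowerSeries ℤ :=
  D1 * D3 * ((x * x * x - C a * D1 - C b * D3) * (x * x * x - C a * D1 - C b * D3))
    - (D1 * D1 + C c * (D1 * D3) + C e * (D3 * D3)) * (D1 * D1 + C c * (D1 * D3) + C e * (D3 * D3))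

theorem smul_ι (z : ℤ) (p : PowerSeries ℤ) : ((z : ℂ) • ι p) = ι (C z * p) := by
  rw [map_mul, ι, PowerSeries.map_C, PowerSeries.smul_eq_C_mul]
  simp

section combinators

variable {k l : ℤ} {f : ModularForm (G0 3) k} {g : ModularForm (G0 3) l} {p q : PowerSeries ℤ}

theorem qe_mul (hf : qExpansion 1 f = ι p) (hg : qExpansion 1 g = ι q) :
    qExpansion 1 (f.mul g) = ι (p * q) := by
  rw [ModularForm.qExpansion_mul one_pos hΓ, hf, hg, map_mul]

theorem qe_mcast {k' : ℤ} (h : k = k') (hf : qExpansion 1 f = ι p) :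
    qExpansion 1 (mcast h f : ModularForm (G0 3) k') = ι p := by
  rw [ModularForm.qExpansion_mcast, hf]

theorem qe_smul (z : ℤ) (hf : qExpansion 1 f = ι p) :
    qExpansion 1 (((z : ℂ) • f : ModularForm (G0 3) k)) = ι (C z * p) := by
  rw [FunLike.coe_smul, ModularForm.qExpansion_smul one_pos hΓ, hf, smul_ι]

theorem qe_add {g' : ModularForm (G0 3) k} (hf : qExpansion 1 f = ι p)
    (hg : qExpansion 1 g' = ι q) :
    qExpansion 1 ((f + g' : ModularForm (G0 3) k)) = ι (p + q) := by
  rw [FunLike.coe_add, ModularForm.qExpansion_add one_pos hΓ, hf, hg, map_add]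

theorem qe_sub {g' : ModularForm (G0 3) k} (hf : qExpansion 1 f = ι p)
    (hg : qExpansion 1 g' = ι q) :
    qExpansion 1 ((f - g' : ModularForm (G0 3) k)) = ι (p - q) := by
  rw [FunLike.coe_sub, ModularForm.qExpansion_sub one_pos hΓ, hf, hg, map_sub]

end combinators

theorem qExpansion_formA (x : ModularForm (G0 3) 4) (X0 : PowerSeries ℤ)
    (hx : qExpansion 1 x = ι X0) (a b : ℤ) :
    qExpansion 1 (formA x a b) = ι (X0 * X0 * X0 - C a * D1 - C b * D3) := by
  have h1 := qe_mul (qe_mul hx hx) hx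
  have h2 := qe_mcast (k' := 12) (by norm_num) h1
  have h3 := qe_sub h2 (qe_smul a qExpansion_d1)
  exact qe_sub h3 (qe_smul b qExpansion_d3)

theorem qExpansion_formB (c e : ℤ) :
    qExpansion 1 (formB c e) = ι (D1 * D1 + C c * (D1 * D3) + C e * (D3 * D3)) := by
  have h1 := qe_mcast (k' := 24) (by norm_num) (qe_mul qExpansion_d1 qExpansion_d1)
  have h2 := qe_mcast (k' := 24) (by norm_num) (qe_mul qExpansion_d1 qExpansion_d3)
  have h3 := qe_mcast (k' := 24) (by norm_num) (qe_mul qExpansion_d3 qExpansion_d3)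
  exact qe_add (qe_add h1 (qe_smul c h2)) (qe_smul e h3)

theorem qExpansion_formF (x : ModularForm (G0 3) 4) (X0 : PowerSeries ℤ)
    (hx : qExpansion 1 x = ι X0) (a b c e : ℤ) :
    qExpansion 1 (formF x a b c e) = ι (polyG X0 a b c e) := by
  have hA := qExpansion_formA x X0 hx a b
  have hB := qExpansion_formB c e
  have h1 := qe_mcast (k' := 48) (by norm_num)
    (qe_mul (qe_mul qExpansion_d1 qExpansion_d3) (qe_mul hA hA))
  have h2 := qe_mcast (k' := 48) (by norm_num) (qe_mul hB hB)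
  exact qe_sub h1 h2

/-- **Consumer form**: the identity `Δ(τ)Δ(3τ)(x³ - aΔ(τ) - bΔ(3τ))² = (Δ(τ)² + cΔ(τ)Δ(3τ) + eΔ(3τ)²)²`
of integer `q`-expansions holds as soon as it holds in degrees `≤ 16`;
`x = E₄(τ)` (`X0 = E`) or `x = E₄(3τ)` (`X0 = E'`). -/
theorem polyG_eq_zero (x : ModularForm (G0 3) 4) (X0 : PowerSeries ℤ)
    (hx : qExpansion 1 x = ι X0) (a b c e : ℤ)
    (h : ∀ n < 17, coeff n (polyG X0 a b c e) = 0) : polyG X0 a b c e = 0 :=
  eq_zero_of_coeff (formF x a b c e) (qExpansion_formF x X0 hx a b c e) h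

theorem polyG_E_eq_zero (a b c e : ℤ) (h : ∀ n < 17, coeff n (polyG E a b c e) = 0) :
    polyG E a b c e = 0 :=
  polyG_eq_zero e4 E qExpansion_e4 a b c e h

theorem polyG_E'_eq_zero (a b c e : ℤ) (h : ∀ n < 17, coeff n (polyG E' a b c e) = 0) :
    polyG E' a b c e = 0 :=
  polyG_eq_zero e4' E' qExpansion_e4' a b c e h

end Fermat.Agent.S28.Haupt3.Sturm3
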