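import Mathlib

/-!
# Kernel-checkable truncated power-series arithmetic over `ℤ`

A tiny computable model (`List ℤ`, little-endian coefficient lists) of `ℤ⟦X⟧` modulo `X ^ M`,
with a semantic map `ev` and correctness statements in terms of `EqUpTo M a b`
(`a` and `b` have the same coefficients in degrees `< M`).  Final numerical checks are done by
`decide +kernel` on lists.

Generic in the truncation order; used for the Hauptmodul identities of level `3` (S28, block H).
-/

set_option autoImplicit false

namespace Fermat.Agent.S28.Haupt3.SeriesCert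

open PowerSeries

/-! ### Agreement up to order `M` -/

/-- `a` and `b` have the same coefficients in all degrees `< M`. -/
def EqUpTo (M : ℕ) (a b : PowerSeries ℤ) : Prop := ∀ n < M, coeff n a = coeff n b

namespace EqUpTo

variable {M : ℕ} {a b c a' b' : PowerSeries ℤ}

theorem refl (M : ℕ) (a : PowerSeries ℤ) : EqUpTo M a a := fun _ _ => rfl

theorem of_eq (h : a = b) : EqUpTo M a b := h ▸ refl M a

theorem symm (h : EqUpTo M a b) : EqUpTo M b a := fun n hn => (h n hn).symm

theorem trans (h : EqUpTo M a b) (h' : EqUpTo M b c) : EqUpTo M a c :=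
  fun n hn => (h n hn).trans (h' n hn)

theorem mono {M' : ℕ} (hM : M' ≤ M) (h : EqUpTo M a b) : EqUpTo M' a b :=
  fun n hn => h n (lt_of_lt_of_le hn hM)

theorem add (h : EqUpTo M a b) (h' : EqUpTo M a' b') : EqUpTo M (a + a') (b + b') := by
  intro n hn
  rw [map_add, map_add, h n hn, h' n hn]

theorem neg (h : EqUpTo M a b) : EqUpTo M (-a) (-b) := by
  intro n hn
  rw [map_neg, map_neg, h n hn]

theorem sub (h : EqUpTo M a b) (h' : EqUpTo M a' b') : EqUpTo M (a - a') (b - b') := by
  intro n hn
  rw [map_sub, map_sub, h n hn, h' n hn]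

theorem mul (h : EqUpTo M a b) (h' : EqUpTo M a' b') : EqUpTo M (a * a') (b * b') := by
  intro n hn
  rw [coeff_mul, coeff_mul]
  refine Finset.sum_congr rfl fun p hp => ?_
  have hsum : p.1 + p.2 = n := Finset.HasAntidiagonal.mem_antidiagonal.mp hp
  rw [h p.1 (by omega), h' p.2 (by omega)]

theorem pow (h : EqUpTo M a b) (k : ℕ) : EqUpTo M (a ^ k) (b ^ k) := by
  induction k with
  | zero => simpa using refl M 1
  | succ k ih => rw [pow_succ, pow_succ]; exact ih.mul h

theorem const_mul (z : ℤ) (h : EqUpTo M a b) : EqUpTo M (C z * a) (C z * b) :=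
  (refl M (C z)).mul h

theorem X_mul (h : EqUpTo M a b) : EqUpTo (M + 1) (X * a) (X * b) := by
  intro n hn
  cases n with
  | zero => simp
  | succ n =>
    rw [mul_comm, coeff_succ_mul_X, mul_comm, coeff_succ_mul_X]
    exact h n (by omega)

theorem X_pow_mul (k : ℕ) (h : EqUpTo M a b) : EqUpTo (M + k) (X ^ k * a) (X ^ k * b) := by
  induction k with
  | zero => simpa using h
  | succ k ih =>
    rw [pow_succ', mul_assoc, mul_assoc, ← add_assoc]
    exact ih.X_mul

theorem expand (d : ℕ) (hd : d ≠ 0) (h : EqUpTo M a b) :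
    EqUpTo M (PowerSeries.expand d hd a) (PowerSeries.expand d hd b) := by
  intro n hn
  rw [coeff_expand, coeff_expand]
  split_ifs with hdn
  · exact h _ (lt_of_le_of_lt (Nat.div_le_self n d) hn)
  · rfl

end EqUpTo

/-! ### The list model -/

/-- Horner evaluation of a little-endian coefficient list. -/
noncomputable def ev : List ℤ → PowerSeries ℤ
  | [] => 0
  | a :: t => C a + X * ev t

@[simp] theorem ev_nil : ev [] = 0 := rfl

@[simp] theorem ev_cons (a : ℤ) (t : List ℤ) : ev (a :: t) = C a + X * ev t := rfl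

theorem coeff_ev (l : List ℤ) (n : ℕ) : coeff n (ev l) = l.getD n 0 := by
  induction l generalizing n with
  | nil => simp
  | cons a t ih =>
    cases n with
    | zero => simp
    | succ n =>
      rw [ev_cons, map_add, coeff_succ_C, zero_add, mul_comm, coeff_succ_mul_X, ih]
      simp

theorem ev_replicate_zero_append (k : ℕ) (l : List ℤ) :
    ev (List.replicate k 0 ++ l) = X ^ k * ev l := by
  induction k with
  | zero => simp
  | succ k ih =>
    rw [List.replicate_succ, List.cons_append, ev_cons, ih, map_zero, zero_add, pow_succ',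
      mul_assoc]

/-- Coefficientwise sum (the longer list wins). -/
def addL : List ℤ → List ℤ → List ℤ
  | [], b => b
  | a, [] => a
  | x :: a, y :: b => (x + y) :: addL a b

theorem ev_addL (a b : List ℤ) : ev (addL a b) = ev a + ev b := by
  induction a generalizing b with
  | nil => simp [addL]
  | cons x a ih =>
    cases b with
    | nil => simp [addL]
    | cons y b =>
      rw [addL, ev_cons, ih, ev_cons, ev_cons, map_add]
      ring

/-- Scalar multiple. -/
def smulL (c : ℤ) : List ℤ → List ℤ
  | [] => []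
  | x :: a => (c * x) :: smulL c a

theorem ev_smulL (c : ℤ) (a : List ℤ) : ev (smulL c a) = C c * ev a := by
  induction a with
  | nil => simp [smulL]
  | cons x a ih =>
    rw [smulL, ev_cons, ih, ev_cons, map_mul]
    ring

/-- Difference. -/
def subL (a b : List ℤ) : List ℤ := addL a (smulL (-1) b)

theorem ev_subL (a b : List ℤ) : ev (subL a b) = ev a - ev b := by
  rw [subL, ev_addL, ev_smulL, map_neg, map_one]
  ring

theorem eqUpTo_take (M : ℕ) (b : List ℤ) : EqUpTo M (ev (b.take M)) (ev b) := by
  intro n hn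
  rw [coeff_ev, coeff_ev, List.getD_eq_getElem?_getD, List.getD_eq_getElem?_getD,
    List.getElem?_take_of_lt hn]

/-- Product truncated at order `M`. -/
def mulT : ℕ → List ℤ → List ℤ → List ℤ
  | 0, _, _ => []
  | _ + 1, [], _ => []
  | M + 1, x :: t, b => addL (smulL x (b.take (M + 1))) (0 :: mulT M t b)

theorem eqUpTo_mulT (M : ℕ) (a b : List ℤ) : EqUpTo M (ev (mulT M a b)) (ev a * ev b) := by
  induction M generalizing a with
  | zero => intro n hn; omega
  | succ M ih =>
    cases a with
    | nil => simpa [mulT] using EqUpTo.refl (M + 1) 0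
    | cons x t =>
      rw [mulT, ev_addL, ev_smulL, ev_cons, ev_cons, map_zero, zero_add]
      have h1 : EqUpTo (M + 1) (C x * ev (b.take (M + 1))) (C x * ev b) :=
        (eqUpTo_take (M + 1) b).const_mul x
      have h2 : EqUpTo (M + 1) (X * ev (mulT M t b)) (X * (ev t * ev b)) := (ih t).X_mul
      have h3 : (C x + X * ev t) * ev b = C x * ev b + X * (ev t * ev b) := by ring
      rw [h3]
      exact h1.add h2

/-- `mulT` respects agreement up to order `M`. -/
theorem EqUpTo.mulT {M : ℕ} {a b : PowerSeries ℤ} {la lb : List ℤ}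
    (ha : EqUpTo M a (ev la)) (hb : EqUpTo M b (ev lb)) :
    EqUpTo M (a * b) (ev (SeriesCert.mulT M la lb)) :=
  (ha.mul hb).trans (eqUpTo_mulT M la lb).symm

theorem EqUpTo.addL {M : ℕ} {a b : PowerSeries ℤ} {la lb : List ℤ}
    (ha : EqUpTo M a (ev la)) (hb : EqUpTo M b (ev lb)) :
    EqUpTo M (a + b) (ev (SeriesCert.addL la lb)) := by
  rw [ev_addL]; exact ha.add hb

theorem EqUpTo.subL {M : ℕ} {a b : PowerSeries ℤ} {la lb : List ℤ}
    (ha : EqUpTo M a (ev la)) (hb : EqUpTo M b (ev lb)) :
    EqUpTo M (a - b) (ev (SeriesCert.subL la lb)) := by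
  rw [ev_subL]; exact ha.sub hb

theorem EqUpTo.smulL {M : ℕ} {a : PowerSeries ℤ} {la : List ℤ} (z : ℤ)
    (ha : EqUpTo M a (ev la)) :
    EqUpTo M (C z * a) (ev (SeriesCert.smulL z la)) := by
  rw [ev_smulL]; exact ha.const_mul z

/-- Insert `d - 1` zeros after each coefficient: `f(X) ↦ f(X ^ d)`. -/
def expandL (d : ℕ) : List ℤ → List ℤ
  | [] => []
  | a :: t => a :: (List.replicate (d - 1) 0 ++ expandL d t)

theorem ev_expandL (d : ℕ) (hd : d ≠ 0) (l : List ℤ) :
    ev (expandL d l) = PowerSeries.expand d hd (ev l) := by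
  induction l with
  | nil => simp [expandL]
  | cons a t ih =>
    rw [expandL, ev_cons, ev_replicate_zero_append, ih, ev_cons, map_add, map_mul, expand_C,
      expand_X, ← mul_assoc, ← pow_succ']
    congr 3
    omega

theorem EqUpTo.expandL {M : ℕ} {a : PowerSeries ℤ} {la : List ℤ} (d : ℕ) (hd : d ≠ 0)
    (ha : EqUpTo M a (ev la)) :
    EqUpTo M (PowerSeries.expand d hd a) (ev (SeriesCert.expandL d la)) := by
  rw [ev_expandL d hd]; exact ha.expand d hd

/-- Shift by `k`: multiplication by `X ^ k`. -/
def shiftL (k : ℕ) (l : List ℤ) : List ℤ := List.replicate k 0 ++ l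

theorem ev_shiftL (k : ℕ) (l : List ℤ) : ev (shiftL k l) = X ^ k * ev l :=
  ev_replicate_zero_append k l

theorem EqUpTo.shiftL {M : ℕ} {a : PowerSeries ℤ} {la : List ℤ} (k : ℕ)
    (ha : EqUpTo M a (ev la)) :
    EqUpTo M (X ^ k * a) (ev (SeriesCert.shiftL k la)) := by
  rw [ev_shiftL]; exact (ha.X_pow_mul k).mono (Nat.le_add_right M k)

/-- Final consumer form: if the computed list vanishes in degrees `< M`, so does the series. -/
theorem coeff_eq_zero_of_eqUpTo {M : ℕ} {a : PowerSeries ℤ} {la : List ℤ}
    (ha : EqUpTo M a (ev la)) (hz : (la.take M).all (fun z => decide (z = 0)) = true)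
    {n : ℕ} (hn : n < M) : coeff n a = 0 := by
  rw [ha n hn, coeff_ev, List.getD_eq_getElem?_getD]
  rw [List.all_eq_true] at hz
  by_cases hlen : n < la.length
  · have hmem : la[n] ∈ la.take M := by
      rw [List.mem_take_iff_getElem]
      exact ⟨n, by rw [lt_min_iff]; exact ⟨hn, hlen⟩, rfl⟩
    have := hz _ hmem
    rw [List.getElem?_eq_getElem hlen]
    simpa using this
  · rw [List.getElem?_eq_none (by omega)]
    rfl

end Fermat.Agent.S28.Haupt3.SeriesCert
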