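import Mathlib
import Fermat.Prelude.Def_ModularCurve_X0
import Fermat.Agent.S28.Haupt3.SeriesCert

/-!
# Coefficients of the Prelude's `etaProd` and `eisenstein4` in low degrees

`etaProd = ∏' n, (1 - X ^ (n + 1))` agrees with the finite product `∏_{i < M} (1 - X ^ (i + 1))`
in all degrees `≤ M`; list certificates for both series.
-/

set_option autoImplicit false

namespace Fermat.Agent.S28.Haupt3.EtaCoeff

open PowerSeries Filter Topology
open scoped PowerSeries.WithPiTopology
open Fermat.Agent.S28.Haupt3.SeriesCert

/-- The finite Euler product `∏_{i < M} (1 - X ^ (i + 1))`. -/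
noncomputable def finProd (M : ℕ) : PowerSeries ℤ :=
  ∏ i ∈ Finset.range M, ((1 : PowerSeries ℤ) - X ^ (i + 1))

theorem finProd_succ (M : ℕ) : finProd (M + 1) = finProd M * (1 - X ^ (M + 1)) := by
  rw [finProd, Finset.prod_range_succ, ← finProd]

/-- Multiplying by `1 - X ^ (M + 1)` does not change the coefficients of degree `≤ M`. -/
theorem coeff_finProd_succ {n M : ℕ} (h : n ≤ M) :
    coeff n (finProd (M + 1)) = coeff n (finProd M) := by
  rw [finProd_succ, mul_sub, mul_one, map_sub, mul_comm, coeff_X_pow_mul', if_neg (by omega),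
    sub_zero]

theorem coeff_finProd_of_le {n M M' : ℕ} (h : n ≤ M) (h' : M ≤ M') :
    coeff n (finProd M') = coeff n (finProd M) := by
  induction M', h' using Nat.le_induction with
  | base => rfl
  | succ k hk ih => rw [coeff_finProd_succ (h.trans hk), ih]

theorem tendsto_finProd :
    Tendsto finProd atTop (𝓝 ModularCurve.etaProd) :=
  (PowerSeries.WithPiTopology.multipliable_one_sub_X_pow ℤ).hasProd.tendsto_prod_nat

/-- `etaProd` agrees with the finite product `finProd M` in degrees `≤ M`. -/
theorem coeff_etaProd {n M : ℕ} (h : n ≤ M) :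
    coeff n ModularCurve.etaProd = coeff n (finProd M) := by
  have h1 : Tendsto (fun M' => coeff n (finProd M')) atTop (𝓝 (coeff n ModularCurve.etaProd)) :=
    ((PowerSeries.WithPiTopology.continuous_coeff ℤ n).tendsto _).comp tendsto_finProd
  have h2 : Tendsto (fun M' => coeff n (finProd M')) atTop (𝓝 (coeff n (finProd M))) := by
    refine tendsto_const_nhds.congr' ?_
    filter_upwards [eventually_ge_atTop M] with M' hM'
    exact (coeff_finProd_of_le h hM').symm
  exact tendsto_nhds_unique h1 h2

theorem eqUpTo_etaProd (M : ℕ) : EqUpTo (M + 1) ModularCurve.etaProd (finProd M) :=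
  fun _ hn => coeff_etaProd (by omega)

/-! ### List certificate for the finite product -/

/-- The list of `1 - X ^ (i + 1)`. -/
def factorL (i : ℕ) : List ℤ := 1 :: (List.replicate i 0 ++ [-1])

theorem ev_factorL (i : ℕ) : ev (factorL i) = 1 - X ^ (i + 1) := by
  rw [factorL, ev_cons, ev_replicate_zero_append, ev_cons, ev_nil, map_one, map_neg, map_one,
    pow_succ']
  ring

/-- The truncated finite products as lists. -/
def finProdL (T : ℕ) : ℕ → List ℤ
  | 0 => [1]
  | M + 1 => mulT T (finProdL T M) (factorL M)

theorem eqUpTo_finProdL (T M : ℕ) : EqUpTo T (finProd M) (ev (finProdL T M)) := by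
  induction M with
  | zero =>
    refine EqUpTo.of_eq ?_
    simp [finProd, finProdL]
  | succ M ih =>
    rw [finProd_succ, finProdL]
    exact EqUpTo.mulT ih (EqUpTo.of_eq (ev_factorL M).symm)

/-- `etaProd` agrees with the list `finProdL (M + 1) M` up to order `M + 1`. -/
theorem eqUpTo_etaProd_list (M : ℕ) :
    EqUpTo (M + 1) ModularCurve.etaProd (ev (finProdL (M + 1) M)) :=
  (eqUpTo_etaProd M).trans (eqUpTo_finProdL (M + 1) M)

/-! ### `eisenstein4` -/

theorem coeff_eisenstein4 (n : ℕ) :
    coeff n ModularCurve.eisenstein4 =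
      if n = 0 then 1 else 240 * ∑ d ∈ n.divisors, (d : ℤ) ^ 3 := by
  rw [ModularCurve.eisenstein4, coeff_mk]

end Fermat.Agent.S28.Haupt3.EtaCoeff
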