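import Mathlib
import Fermat.Agent.S28.Haupt3.EtaCoeff
import Fermat.Agent.S28.Haupt3.Sturm3

/-!
# Numerical certificates for the two weight-`48` identities on `Γ₀(3)`

The `17` coefficients required by the Sturm bound are computed in the list model of
`SeriesCert` and checked by the kernel (`decide +kernel`).
-/

set_option autoImplicit false

namespace Fermat.Agent.S28.Haupt3.Cert

open PowerSeries
open Fermat.Agent.S28.Haupt3.SeriesCert Fermat.Agent.S28.Haupt3.EtaCoeff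
open Fermat.Agent.S28.Haupt3.Sturm3

/-- The first `17` coefficients of `E₄`. -/
def El : List ℤ :=
  [1, 240, 2160, 6720, 17520, 30240, 60480, 82560, 140400, 181680, 272160, 319680, 490560,
    527520, 743040, 846720, 1123440]

theorem eqUpTo_E : EqUpTo 17 E (ev El) := by
  intro n hn
  rw [coeff_ev, E, coeff_eisenstein4]
  interval_cases n <;> decide +kernel

/-- `E₄(q³)`. -/
def E'l : List ℤ := expandL 3 El

theorem eqUpTo_E' : EqUpTo 17 E' (ev E'l) :=
  EqUpTo.expandL 3 (by norm_num) eqUpTo_E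

/-- `∏ (1 - qⁿ)` up to `q¹⁶`. -/
def Pl : List ℤ := finProdL 17 16

theorem eqUpTo_P : EqUpTo 17 ModularCurve.etaProd (ev Pl) := eqUpTo_etaProd_list 16

def P2l : List ℤ := mulT 17 Pl Pl
def P3l : List ℤ := mulT 17 P2l Pl
def P6l : List ℤ := mulT 17 P3l P3l
def P12l : List ℤ := mulT 17 P6l P6l
def P24l : List ℤ := mulT 17 P12l P12l

/-- `Δ` up to `q¹⁶`. -/
def D1l : List ℤ := shiftL 1 P24l

/-- `Δ(q³)` up to `q¹⁶`. -/
def D3l : List ℤ := expandL 3 D1l

theorem eqUpTo_P12 : EqUpTo 17 (ModularCurve.etaProd ^ 12) (ev P12l) := by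
  have h2 := eqUpTo_P.mulT eqUpTo_P
  have h3 := h2.mulT eqUpTo_P
  have h6 := h3.mulT h3
  have h12 := h6.mulT h6
  have e : ModularCurve.etaProd ^ 12 =
      ModularCurve.etaProd * ModularCurve.etaProd * ModularCurve.etaProd *
      (ModularCurve.etaProd * ModularCurve.etaProd * ModularCurve.etaProd) *
      (ModularCurve.etaProd * ModularCurve.etaProd * ModularCurve.etaProd *
      (ModularCurve.etaProd * ModularCurve.etaProd * ModularCurve.etaProd)) := by
    ring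
  rw [e]
  exact h12

theorem eqUpTo_D1 : EqUpTo 17 D1 (ev D1l) := by
  have h24 := eqUpTo_P12.mulT eqUpTo_P12
  have h := h24.shiftL 1
  have e : D1 = X ^ 1 * (ModularCurve.etaProd ^ 12 * ModularCurve.etaProd ^ 12) := by
    rw [D1, ModularCurve.dedekindEtaUnit]
    ring
  rw [e]
  exact h

/-- `P(q³)¹²` up to `q¹⁶`. -/
def P3_12l : List ℤ := expandL 3 P12l

theorem eqUpTo_P3_12 :
    EqUpTo 17 (PowerSeries.expand 3 (by norm_num) (ModularCurve.etaProd ^ 12)) (ev P3_12l) :=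
  EqUpTo.expandL 3 (by norm_num) eqUpTo_P12

theorem coeff_P12_one : coeff 1 (ModularCurve.etaProd ^ 12) = -12 := by
  rw [eqUpTo_P12 1 (by norm_num), coeff_ev]
  decide +kernel

theorem coeff_P12_four : coeff 4 (ModularCurve.etaProd ^ 12) = -99 := by
  rw [eqUpTo_P12 4 (by norm_num), coeff_ev]
  decide +kernel

theorem coeff_P3_12_one :
    coeff 1 (PowerSeries.expand 3 (by norm_num) (ModularCurve.etaProd ^ 12)) = 0 := by
  rw [eqUpTo_P3_12 1 (by norm_num), coeff_ev]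
  decide +kernel

theorem coeff_P3_12_four :
    coeff 4 (PowerSeries.expand 3 (by norm_num) (ModularCurve.etaProd ^ 12)) = 0 := by
  rw [eqUpTo_P3_12 4 (by norm_num), coeff_ev]
  decide +kernel

theorem eqUpTo_D3 : EqUpTo 17 D3 (ev D3l) :=
  EqUpTo.expandL 3 (by norm_num) eqUpTo_D1

/-- The list counterpart of `Sturm3.polyG`. -/
def polyGL (xl : List ℤ) (a b c e : ℤ) : List ℤ :=
  let x3 := mulT 17 (mulT 17 xl xl) xl
  let A := subL (subL x3 (smulL a D1l)) (smulL b D3l)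
  let D13 := mulT 17 D1l D3l
  let B := addL (addL (mulT 17 D1l D1l) (smulL c D13)) (smulL e (mulT 17 D3l D3l))
  subL (mulT 17 D13 (mulT 17 A A)) (mulT 17 B B)

theorem eqUpTo_polyG {X0 : PowerSeries ℤ} {xl : List ℤ} (hx : EqUpTo 17 X0 (ev xl))
    (a b c e : ℤ) : EqUpTo 17 (polyG X0 a b c e) (ev (polyGL xl a b c e)) := by
  have hx3 := (hx.mulT hx).mulT hx
  have hA := (hx3.subL (eqUpTo_D1.smulL a)).subL (eqUpTo_D3.smulL b)
  have hD13 := eqUpTo_D1.mulT eqUpTo_D3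
  have hB := ((eqUpTo_D1.mulT eqUpTo_D1).addL (hD13.smulL c)).addL
    ((eqUpTo_D3.mulT eqUpTo_D3).smulL e)
  exact (hD13.mulT (hA.mulT hA)).subL (hB.mulT hB)

theorem cert1 :
    ((polyGL El 756 19131876 196830 387420489).take 17).all (fun z => decide (z = 0)) = true := by
  decide +kernel

theorem cert2 :
    ((polyGL E'l 36 756 270 729).take 17).all (fun z => decide (z = 0)) = true := by
  decide +kernel

/-- First squared identity:
`Δ(τ)Δ(3τ)(E₄³ - 756Δ(τ) - 19131876Δ(3τ))² = (Δ(τ)² + 196830Δ(τ)Δ(3τ) + 387420489Δ(3τ)²)²`. -/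
theorem polyG_E : polyG E 756 19131876 196830 387420489 = 0 :=
  polyG_E_eq_zero _ _ _ _ fun _ hn =>
    coeff_eq_zero_of_eqUpTo (eqUpTo_polyG eqUpTo_E _ _ _ _) cert1 hn

/-- Second squared identity:
`Δ(τ)Δ(3τ)(E₄(3τ)³ - 36Δ(τ) - 756Δ(3τ))² = (Δ(τ)² + 270Δ(τ)Δ(3τ) + 729Δ(3τ)²)²`. -/
theorem polyG_E' : polyG E' 36 756 270 729 = 0 :=
  polyG_E'_eq_zero _ _ _ _ fun _ hn =>
    coeff_eq_zero_of_eqUpTo (eqUpTo_polyG eqUpTo_E' _ _ _ _) cert2 hn

end Fermat.Agent.S28.Haupt3.Cert
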