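import Mathlib
import Fermat.Agent.S28.Haupt3.Cert

/-!
# The level-3 Hauptmodul identities as formal power-series identities over `ℤ`

With `P = ∏ (1 - qⁿ)`, `P₃ = P(q³)`, `u = P¹²`, `w = P₃¹²`, `E = E₄`, `E' = E₄(q³)`:
* `E³ u w = (u + 27 q w)(u + 243 q w)³`,
* `E'³ u w = (u + 27 q w)(u + 3 q w)³`,
obtained as square roots (in the domain `ℤ⟦X⟧`) of the squared weight-48 identities of `Cert`.
Consequently, for `f₃ = (P₃/P)¹²` and `jNum = q j`:
* `jNum · f₃ = (1 + 27 q f₃)(1 + 243 q f₃)³`,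
* `jNum(q³) · f₃³ = (1 + 27 q f₃)(1 + 3 q f₃)³`.
-/

set_option autoImplicit false

noncomputable section

namespace Fermat.Agent.S28.Haupt3.Formal

open PowerSeries
open Fermat.Agent.S28.Haupt3.Sturm3 Fermat.Agent.S28.Haupt3.Cert

/-- `P = ∏ (1 - qⁿ)`. -/
abbrev P : PowerSeries ℤ := ModularCurve.etaProd

/-- `P₃ = P(q³)`. -/
def P3 : PowerSeries ℤ := expand 3 (by norm_num) P

/-- The inverse of `P`. -/
def I : PowerSeries ℤ := P.invOfUnit 1

theorem P_mul_I : P * I = 1 :=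
  PowerSeries.mul_invOfUnit _ _ (by rw [ModularCurve.constantCoeff_etaProd]; rfl)

/-- The inverse of `P₃`. -/
def I3 : PowerSeries ℤ := expand 3 (by norm_num) I

theorem P3_mul_I3 : P3 * I3 = 1 := by
  rw [P3, I3, ← map_mul, P_mul_I, map_one]

theorem constantCoeff_P : constantCoeff P = 1 := ModularCurve.constantCoeff_etaProd

theorem constantCoeff_P3 : constantCoeff P3 = 1 := by
  rw [P3, constantCoeff_expand, constantCoeff_P]

theorem constantCoeff_I : constantCoeff I = 1 := by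
  have h := congrArg constantCoeff P_mul_I
  rwa [map_mul, constantCoeff_P, one_mul, map_one] at h

theorem D1_eq : D1 = X * (P ^ 12) ^ 2 := by
  rw [D1, ModularCurve.dedekindEtaUnit]
  ring

theorem D3_eq : D3 = X ^ 3 * (P3 ^ 12) ^ 2 := by
  rw [D3, D1_eq, map_mul, expand_X, map_pow, map_pow, P3]

theorem constantCoeff_E : constantCoeff E = 1 := ModularCurve.constantCoeff_eisenstein4

theorem constantCoeff_E' : constantCoeff E' = 1 := by
  rw [E', constantCoeff_expand, constantCoeff_E]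

/-- The square-root step, abstractly: from `D₁D₃A² = B²` to `u w A₀ = B₀`. -/
theorem sqrt_step (x u w : PowerSeries ℤ) (a b c e : ℤ)
    (hx : constantCoeff x = 1) (hu : constantCoeff u = 1) (hw : constantCoeff w = 1)
    (h : (X * u ^ 2) * (X ^ 3 * w ^ 2) *
        ((x * x * x - C a * (X * u ^ 2) - C b * (X ^ 3 * w ^ 2)) *
          (x * x * x - C a * (X * u ^ 2) - C b * (X ^ 3 * w ^ 2)))
      - ((X * u ^ 2) * (X * u ^ 2) + C c * ((X * u ^ 2) * (X ^ 3 * w ^ 2)) +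
          C e * ((X ^ 3 * w ^ 2) * (X ^ 3 * w ^ 2))) *
        ((X * u ^ 2) * (X * u ^ 2) + C c * ((X * u ^ 2) * (X ^ 3 * w ^ 2)) +
          C e * ((X ^ 3 * w ^ 2) * (X ^ 3 * w ^ 2))) = 0) :
    u * w * (x ^ 3 - C a * (X * u ^ 2) - C b * (X ^ 3 * w ^ 2)) =
      u ^ 4 + C c * (X ^ 2 * u ^ 2 * w ^ 2) + C e * (X ^ 4 * w ^ 4) := by
  set A := x ^ 3 - C a * (X * u ^ 2) - C b * (X ^ 3 * w ^ 2) with hA
  set B := u ^ 4 + C c * (X ^ 2 * u ^ 2 * w ^ 2) + C e * (X ^ 4 * w ^ 4) with hB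
  have hX : (X : PowerSeries ℤ) ^ 4 ≠ 0 := pow_ne_zero _ X_ne_zero
  have hprod : X ^ 4 * ((u * w * A - B) * (u * w * A + B)) = 0 := by
    rw [← h, hA, hB]
    ring
  rcases mul_eq_zero.mp hprod with h0 | h0
  · exact absurd h0 hX
  rcases mul_eq_zero.mp h0 with h1 | h1
  · exact sub_eq_zero.mp h1
  · exfalso
    have h2 := congrArg constantCoeff h1
    rw [hA, hB] at h2
    simp only [map_add, map_sub, map_mul, map_pow, hx, hu, hw, constantCoeff_X, map_zero] at h2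
    norm_num at h2

/-- `E³ u w = (u + 27 q w)(u + 243 q w)³`. -/
theorem F1 : E ^ 3 * P ^ 12 * P3 ^ 12 =
    (P ^ 12 + 27 * X * P3 ^ 12) * (P ^ 12 + 243 * X * P3 ^ 12) ^ 3 := by
  have h := polyG_E
  rw [polyG, D1_eq, D3_eq] at h
  have h' := sqrt_step E (P ^ 12) (P3 ^ 12) 756 19131876 196830 387420489 constantCoeff_E
    (by rw [map_pow, constantCoeff_P, one_pow]) (by rw [map_pow, constantCoeff_P3, one_pow]) h
  have h756 : (C (756 : ℤ) : PowerSeries ℤ) = 756 := by simp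
  have h2 : (C (19131876 : ℤ) : PowerSeries ℤ) = 19131876 := by simp
  have h3 : (C (196830 : ℤ) : PowerSeries ℤ) = 196830 := by simp
  have h4 : (C (387420489 : ℤ) : PowerSeries ℤ) = 387420489 := by simp
  rw [h756, h2, h3, h4] at h'
  linear_combination h'

/-- `E'³ u w = (u + 27 q w)(u + 3 q w)³`. -/
theorem F2 : E' ^ 3 * P ^ 12 * P3 ^ 12 =
    (P ^ 12 + 27 * X * P3 ^ 12) * (P ^ 12 + 3 * X * P3 ^ 12) ^ 3 := by
  have h := polyG_E'
  rw [polyG, D1_eq, D3_eq] at h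
  have h' := sqrt_step E' (P ^ 12) (P3 ^ 12) 36 756 270 729 constantCoeff_E'
    (by rw [map_pow, constantCoeff_P, one_pow]) (by rw [map_pow, constantCoeff_P3, one_pow]) h
  have h1 : (C (36 : ℤ) : PowerSeries ℤ) = 36 := by simp
  have h2 : (C (756 : ℤ) : PowerSeries ℤ) = 756 := by simp
  have h3 : (C (270 : ℤ) : PowerSeries ℤ) = 270 := by simp
  have h4 : (C (729 : ℤ) : PowerSeries ℤ) = 729 := by simp
  rw [h1, h2, h3, h4] at h'
  linear_combination h'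

/-- The Hauptmodul of level `3` divided by `q`: `f₃ = (P₃ / P)¹²`. -/
def f3 : PowerSeries ℤ := P3 ^ 12 * I ^ 12

theorem constantCoeff_f3 : constantCoeff f3 = 1 := by
  rw [f3, map_mul, map_pow, map_pow, constantCoeff_P3, constantCoeff_I]
  norm_num

theorem f3_mul : f3 * P ^ 12 = P3 ^ 12 := by
  have h : (P * I) ^ 12 = 1 := by rw [P_mul_I, one_pow]
  rw [f3]
  linear_combination (P3 ^ 12) * h

theorem dedekindEtaUnitInv_eq : ModularCurve.dedekindEtaUnitInv = I ^ 24 := by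
  have h1 : ModularCurve.dedekindEtaUnit * ModularCurve.dedekindEtaUnitInv = 1 :=
    ModularCurve.dedekindEtaUnit_mul_inv
  have h2 : ModularCurve.dedekindEtaUnit * I ^ 24 = 1 := by
    rw [ModularCurve.dedekindEtaUnit, ← mul_pow, P_mul_I, one_pow]
  calc ModularCurve.dedekindEtaUnitInv
      = (ModularCurve.dedekindEtaUnit * I ^ 24) * ModularCurve.dedekindEtaUnitInv := by
        rw [h2, one_mul]
    _ = (ModularCurve.dedekindEtaUnit * ModularCurve.dedekindEtaUnitInv) * I ^ 24 := by ring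
    _ = I ^ 24 := by rw [h1, one_mul]

theorem jNum_eq : ModularCurve.jNum = E ^ 3 * I ^ 24 := by
  rw [ModularCurve.jNum, dedekindEtaUnitInv_eq, E]

/-- `q j · f₃ = (1 + 27 q f₃)(1 + 243 q f₃)³`. -/
theorem jNum_mul_f3 :
    ModularCurve.jNum * f3 = (1 + 27 * (X * f3)) * (1 + 243 * (X * f3)) ^ 3 := by
  have h : P ^ 12 * I ^ 12 = 1 := by rw [← mul_pow, P_mul_I, one_pow]
  have hF := F1
  rw [jNum_eq, f3]
  calc E ^ 3 * I ^ 24 * (P3 ^ 12 * I ^ 12)
      = (E ^ 3 * P ^ 12 * P3 ^ 12) * (I ^ 12) ^ 4 := by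
        linear_combination (-(E ^ 3 * I ^ 36 * P3 ^ 12)) * h
    _ = ((P ^ 12 * I ^ 12) + 27 * (X * (P3 ^ 12 * I ^ 12))) *
          ((P ^ 12 * I ^ 12) + 243 * (X * (P3 ^ 12 * I ^ 12))) ^ 3 := by
        rw [hF]; ring
    _ = _ := by rw [h]

/-- `(q j)(q³) · f₃³ = (1 + 27 q f₃)(1 + 3 q f₃)³`. -/
theorem expand_jNum_mul_f3 :
    expand 3 (by norm_num) ModularCurve.jNum * f3 ^ 3 =
      (1 + 27 * (X * f3)) * (1 + 3 * (X * f3)) ^ 3 := by
  have h : P ^ 12 * I ^ 12 = 1 := by rw [← mul_pow, P_mul_I, one_pow]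
  have h3 : P3 ^ 24 * I3 ^ 24 = 1 := by rw [← mul_pow, P3_mul_I3, one_pow]
  have hF := F2
  have hj : expand 3 (by norm_num) ModularCurve.jNum = E' ^ 3 * I3 ^ 24 := by
    rw [jNum_eq, map_mul, map_pow, map_pow, E', I3]
  rw [hj, f3]
  calc E' ^ 3 * I3 ^ 24 * (P3 ^ 12 * I ^ 12) ^ 3
      = (E' ^ 3 * P ^ 12 * P3 ^ 12) * (I ^ 12) ^ 4 := by
        linear_combination (E' ^ 3 * P3 ^ 12 * I ^ 36) * h3 - (E' ^ 3 * I ^ 36 * P3 ^ 12) * h
    _ = ((P ^ 12 * I ^ 12) + 27 * (X * (P3 ^ 12 * I ^ 12))) *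
          ((P ^ 12 * I ^ 12) + 3 * (X * (P3 ^ 12 * I ^ 12))) ^ 3 := by
        rw [hF]; ring
    _ = _ := by rw [h]

end Fermat.Agent.S28.Haupt3.Formal
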