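import Mathlib
import Fermat.Agent.S28.Interfaces
import Fermat.Agent.S28.PrimeCaseFrob
import Fermat.Agent.S28.Haupt3.Formal

/-!
# Block H, `m = 3`: the Hauptmodul package of level `3`

`haupt3 : Interfaces.Haupt3Statement`: over every field `k` with `(3 : k) ≠ 0`, with
`f = (P(q³)/P(q))¹²` (image of `Formal.f3`), `h = q f`:
`j h = (1 + 27 h)(1 + 243 h)³` and `j(q³) h³ = (1 + 27 h)(1 + 3 h)³`.

Also the ring-generic Laurent-series identities `jq_mul_h3`, `jD3_mul_h3_pow`.
-/

set_option autoImplicit false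

noncomputable section

namespace Fermat.Agent.S28.Haupt3.Main

open PowerSeries ModularCurve
open Fermat.Agent.S28.Interfaces Fermat.Agent.S28.Haupt3.Formal

variable (R : Type*) [CommRing R]

/-- `f₃ = (P(q³)/P(q))¹²` over `R`. -/
def f3R : PowerSeries R := f3.map (Int.castRingHom R)

/-- The Hauptmodul `h₃ = q f₃` of level `3` over `R`, as a Laurent series. -/
def h3 : LaurentSeries R := HahnSeries.single 1 1 * HahnSeries.ofPowerSeries ℤ R (f3R R)

theorem constantCoeff_f3R : constantCoeff (f3R R) = 1 := by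
  rw [f3R, ← coeff_zero_eq_constantCoeff_apply, coeff_map, coeff_zero_eq_constantCoeff_apply,
    constantCoeff_f3, map_one]

theorem h3_eq : h3 R = HahnSeries.ofPowerSeries ℤ R (X * f3R R) := by
  rw [h3, map_mul, HahnSeries.ofPowerSeries_X]

theorem jNum_mul_f3R :
    jNum.map (Int.castRingHom R) * f3R R =
      (1 + 27 * (X * f3R R)) * (1 + 243 * (X * f3R R)) ^ 3 := by
  have h := congrArg (PowerSeries.map (Int.castRingHom R)) jNum_mul_f3
  simpa only [map_mul, map_add, map_pow, map_one, map_ofNat, map_X, f3R] using h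

theorem expand_jNum_mul_f3R :
    expand 3 (by norm_num) (jNum.map (Int.castRingHom R)) * f3R R ^ 3 =
      (1 + 27 * (X * f3R R)) * (1 + 3 * (X * f3R R)) ^ 3 := by
  have h := congrArg (PowerSeries.map (Int.castRingHom R)) expand_jNum_mul_f3
  simpa only [map_mul, map_add, map_pow, map_one, map_ofNat, map_X, f3R, map_expand] using h

/-- `j · h₃ = (1 + 27 h₃)(1 + 243 h₃)³` in `R((q))`. -/
theorem jq_mul_h3 : jqModC R * h3 R = (1 + 27 * h3 R) * (1 + 243 * h3 R) ^ 3 := by
  have h1 : jqModC R * h3 R =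
      HahnSeries.ofPowerSeries ℤ R (jNum.map (Int.castRingHom R) * f3R R) := by
    rw [jqModC, h3, map_mul]
    have hs : (HahnSeries.single (-1 : ℤ) (1 : R)) * HahnSeries.single (1 : ℤ) (1 : R) = 1 := by
      rw [HahnSeries.single_mul_single]
      simp
    calc HahnSeries.single (-1 : ℤ) (1 : R) * HahnSeries.ofPowerSeries ℤ R
            (jNum.map (Int.castRingHom R)) *
          (HahnSeries.single 1 1 * HahnSeries.ofPowerSeries ℤ R (f3R R))
        = (HahnSeries.single (-1 : ℤ) (1 : R) * HahnSeries.single (1 : ℤ) (1 : R)) *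
            (HahnSeries.ofPowerSeries ℤ R (jNum.map (Int.castRingHom R)) *
              HahnSeries.ofPowerSeries ℤ R (f3R R)) := by ring
      _ = _ := by rw [hs, one_mul]
  rw [h1, jNum_mul_f3R, h3_eq]
  simp only [map_mul, map_add, map_pow, map_one, map_ofNat]

/-- `j(q³) · h₃³ = (1 + 27 h₃)(1 + 3 h₃)³` in `R((q))`. -/
theorem jD3_mul_h3_pow : jD R 3 * h3 R ^ 3 = (1 + 27 * h3 R) * (1 + 3 * h3 R) ^ 3 := by
  have h1 : jD R 3 * h3 R ^ 3 = HahnSeries.ofPowerSeries ℤ R
      (expand 3 (by norm_num) (jNum.map (Int.castRingHom R)) * f3R R ^ 3) := by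
    rw [jD_eq, jqModC, h3, map_mul, qExpand_single,
      Fermat.Agent.S28.PrimeCaseFrob.qExpand_ofPowerSeries, map_mul, map_pow, mul_pow,
      HahnSeries.single_pow]
    have hs : (HahnSeries.single (((3 : ℕ) : ℤ) * (-1 : ℤ)) (1 : R)) *
        HahnSeries.single ((3 : ℕ) • (1 : ℤ)) ((1 : R) ^ 3) = 1 := by
      rw [HahnSeries.single_mul_single]
      simp
    calc HahnSeries.single (((3 : ℕ) : ℤ) * (-1 : ℤ)) (1 : R) * HahnSeries.ofPowerSeries ℤ R
            (expand 3 _ (jNum.map (Int.castRingHom R))) *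
          (HahnSeries.single ((3 : ℕ) • (1 : ℤ)) ((1 : R) ^ 3) *
            HahnSeries.ofPowerSeries ℤ R (f3R R) ^ 3)
        = (HahnSeries.single (((3 : ℕ) : ℤ) * (-1 : ℤ)) (1 : R) *
            HahnSeries.single ((3 : ℕ) • (1 : ℤ)) ((1 : R) ^ 3)) *
            (HahnSeries.ofPowerSeries ℤ R (expand 3 _ (jNum.map (Int.castRingHom R))) *
              HahnSeries.ofPowerSeries ℤ R (f3R R) ^ 3) := by ring
      _ = _ := by rw [hs, one_mul]
  rw [h1, expand_jNum_mul_f3R, h3_eq]
  simp only [map_mul, map_add, map_pow, map_one, map_ofNat]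

/-! ### `f₃ ≠ 1` as soon as `3 ≠ 0` -/

theorem f3R_mul : f3R R * (etaProd.map (Int.castRingHom R)) ^ 12 =
    (expand 3 (by norm_num) (etaProd ^ 12)).map (Int.castRingHom R) := by
  have h := congrArg (PowerSeries.map (Int.castRingHom R)) f3_mul
  rw [map_mul, map_pow] at h
  rw [f3R, h, P3, map_pow, map_pow, map_pow]

theorem f3R_ne_one {k : Type*} [Field k] (h3 : (3 : k) ≠ 0) : f3R k ≠ 1 := by
  intro h
  have hm := f3R_mul k
  rw [h, one_mul, ← map_pow] at hm
  have h1 := congrArg (coeff 1) hm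
  have h4 := congrArg (coeff 4) hm
  rw [coeff_map, coeff_map, Cert.coeff_P12_one, Cert.coeff_P3_12_one] at h1
  rw [coeff_map, coeff_map, Cert.coeff_P12_four, Cert.coeff_P3_12_four] at h4
  simp only [eq_intCast, Int.cast_neg, Int.cast_ofNat, Int.cast_zero, neg_eq_zero] at h1 h4
  apply h3
  linear_combination h4 - 8 * h1

/-! ### The polynomials `a₃ = (1 + 27 X)(1 + 243 X)³`, `b₃ = (1 + 27 X)(1 + 3 X)³` -/

section polys

open Polynomial

variable (k : Type*) [Field k]

/-- `a₃ = (27 X + 1)(243 X + 1)³`. -/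
def a3 : Polynomial k :=
  (Polynomial.C 27 * Polynomial.X + Polynomial.C 1) *
    (Polynomial.C 243 * Polynomial.X + Polynomial.C 1) ^ 3

/-- `b₃ = (27 X + 1)(3 X + 1)³`. -/
def b3 : Polynomial k :=
  (Polynomial.C 27 * Polynomial.X + Polynomial.C 1) *
    (Polynomial.C 3 * Polynomial.X + Polynomial.C 1) ^ 3

variable {k}

theorem natDegree_a3 (h3 : (3 : k) ≠ 0) : (a3 k).natDegree = 4 := by
  have h27 : (27 : k) ≠ 0 := by
    have : (27 : k) = 3 ^ 3 := by norm_num
    rw [this]; exact pow_ne_zero _ h3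
  have h243 : (243 : k) ≠ 0 := by
    have : (243 : k) = 3 ^ 5 := by norm_num
    rw [this]; exact pow_ne_zero _ h3
  have d1 : (Polynomial.C (27 : k) * Polynomial.X + Polynomial.C 1).natDegree = 1 := natDegree_linear h27
  have d2 : (Polynomial.C (243 : k) * Polynomial.X + Polynomial.C 1).natDegree = 1 := natDegree_linear h243
  have n1 : (Polynomial.C (27 : k) * Polynomial.X + Polynomial.C 1) ≠ 0 := fun h => by rw [h] at d1; simp at d1
  have n2 : (Polynomial.C (243 : k) * Polynomial.X + Polynomial.C 1) ≠ 0 := fun h => by rw [h] at d2; simp at d2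
  rw [a3, natDegree_mul n1 (pow_ne_zero _ n2), natDegree_pow, d1, d2]

theorem natDegree_b3 (h3 : (3 : k) ≠ 0) : (b3 k).natDegree = 4 := by
  have h27 : (27 : k) ≠ 0 := by
    have : (27 : k) = 3 ^ 3 := by norm_num
    rw [this]; exact pow_ne_zero _ h3
  have d1 : (Polynomial.C (27 : k) * Polynomial.X + Polynomial.C 1).natDegree = 1 := natDegree_linear h27
  have d2 : (Polynomial.C (3 : k) * Polynomial.X + Polynomial.C 1).natDegree = 1 := natDegree_linear h3
  have n1 : (Polynomial.C (27 : k) * Polynomial.X + Polynomial.C 1) ≠ 0 := fun h => by rw [h] at d1; simp at d1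
  have n2 : (Polynomial.C (3 : k) * Polynomial.X + Polynomial.C 1) ≠ 0 := fun h => by rw [h] at d2; simp at d2
  rw [b3, natDegree_mul n1 (pow_ne_zero _ n2), natDegree_pow, d1, d2]

theorem coeff_zero_a3 : (a3 k).coeff 0 = 1 := by
  rw [coeff_zero_eq_eval_zero, a3]
  simp

theorem coeff_zero_b3 : (b3 k).coeff 0 = 1 := by
  rw [coeff_zero_eq_eval_zero, b3]
  simp

theorem aeval_a3 (h : LaurentSeries k) :
    aeval h (a3 k) = (1 + 27 * h) * (1 + 243 * h) ^ 3 := by
  rw [a3]
  simp only [map_mul, map_add, map_pow, aeval_X, map_one, map_ofNat]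
  ring

theorem aeval_b3 (h : LaurentSeries k) :
    aeval h (b3 k) = (1 + 27 * h) * (1 + 3 * h) ^ 3 := by
  rw [b3]
  simp only [map_mul, map_add, map_pow, aeval_X, map_one, map_ofNat]
  ring

end polys

/-- **Block H, `m = 3`.** -/
theorem haupt3 : Haupt3Statement := by
  intro k _ h3
  refine ⟨f3R k, a3 k, b3 k, constantCoeff_f3R k, f3R_ne_one h3, natDegree_a3 h3,
    natDegree_b3 h3, coeff_zero_a3, coeff_zero_b3, ?_, ?_⟩
  · rw [aeval_a3]
    exact jq_mul_h3 k
  · rw [aeval_b3]
    exact jD3_mul_h3_pow k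

end Fermat.Agent.S28.Haupt3.Main
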